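/-
Program MW-H (S17), brick D1 (abstract core) -- helper74.

Galois descent for semilinear actions: `K / k` a normal (possibly infinite) algebraic extension,
`Γ = Gal(K/k)` acting semilinearly and smoothly on a `K`-vector space `V`; every finite-dimensional
`Γ`-stable subspace `W ≤ V` has a `K`-basis consisting of `Γ`-fixed vectors.

Proof: for `w ∈ W` choose a finite normal `E / k` whose fixing subgroup fixes `w`; the traces
`T(l w) = ∑_{g ∈ Gal(E/k)} σ_g (l • w)` (`σ_g` a lift of `g`) are fixed vectors of `W`, and by
Dedekind independence of the characters `g : E → K` the vector `w` is a `K`-combination of them.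
So the fixed vectors of `W` span `W`; extract a basis.
-/
import Mathlib

set_option autoImplicit false
set_option linter.unusedSectionVars false

namespace Fermat.Agent.MW.Descent.SemilinearDescent74

open Module

variable {k K : Type*} [Field k] [Field K] [Algebra k K]
variable {V : Type*} [AddCommGroup V] [Module K V]

/-- A semilinear action of `Gal(K/k)` on a `K`-vector space, as a plain function. -/
structure IsSemilinearAction (act : (K ≃ₐ[k] K) → V → V) : Prop where
  one : ∀ v, act 1 v = v
  mul : ∀ σ τ v, act (σ * τ) v = act σ (act τ v)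
  add : ∀ σ v w, act σ (v + w) = act σ v + act σ w
  smul : ∀ σ (a : K) v, act σ (a • v) = σ a • act σ v

/-- Smoothness: every vector is fixed by the automorphisms fixing a finite subextension. -/
def IsSmooth (act : (K ≃ₐ[k] K) → V → V) : Prop :=
  ∀ v, ∃ E : IntermediateField k K, FiniteDimensional k E ∧
    ∀ σ : K ≃ₐ[k] K, (∀ e ∈ E, σ e = e) → act σ v = v

namespace IsSemilinearAction

variable {act : (K ≃ₐ[k] K) → V → V} (h : IsSemilinearAction act)
include h

theorem zero (σ : K ≃ₐ[k] K) : act σ 0 = 0 := by
  have := h.add σ 0 0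
  rw [add_zero] at this
  exact left_eq_add.mp this

theorem sum {ι : Type*} (s : Finset ι) (f : ι → V) (σ : K ≃ₐ[k] K) :
    act σ (∑ i ∈ s, f i) = ∑ i ∈ s, act σ (f i) := by
  classical
  induction s using Finset.induction_on with
  | empty => simp [h.zero]
  | insert a s ha ih => rw [Finset.sum_insert ha, Finset.sum_insert ha, h.add, ih]

end IsSemilinearAction

section dedekind

/-- The character `E → K` attached to `g ∈ Gal(E/k)`. -/
def galChar (E : IntermediateField k K) (g : E ≃ₐ[k] E) : E →* K :=
  ((algebraMap E K : E →* K)).comp (g : E →* E)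

theorem galChar_apply (E : IntermediateField k K) (g : E ≃ₐ[k] E) (l : E) :
    galChar E g l = ((g l : E) : K) := rfl

theorem galChar_injective (E : IntermediateField k K) : Function.Injective (galChar E) := by
  intro g g' hgg
  ext l
  have := DFunLike.congr_fun hgg l
  exact this

open scoped Classical in
/-- **Dedekind independence**, in the form used for Galois descent: the indicator function of
`1 ∈ Gal(E/k)` is a `K`-linear combination of the vectors `(g l)_g`, `l ∈ E`. -/
theorem exists_dedekind (E : IntermediateField k K) [FiniteDimensional k E] :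
    ∃ c : E →₀ K, ∀ g : E ≃ₐ[k] E,
      (c.sum fun l a => a * ((g l : E) : K)) = if g = 1 then 1 else 0 := by
  classical
  have : Fintype (E ≃ₐ[k] E) := Fintype.ofFinite _
  let v : E → ((E ≃ₐ[k] E) → K) := fun l g => ((g l : E) : K)
  have htop : Submodule.span K (Set.range v) = ⊤ := by
    by_contra hne
    obtain ⟨f, hf0, hf⟩ := Submodule.exists_le_ker_of_lt_top _ (lt_top_iff_ne_top.mpr hne)
    apply hf0
    have hli : LinearIndependent K (fun g : E ≃ₐ[k] E => (galChar E g : E → K)) :=
      (linearIndependent_monoidHom E K).comp _ (galChar_injective E)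
    have hzero : ∑ g : E ≃ₐ[k] E, f (fun j => if g = j then 1 else 0) •
        (galChar E g : E → K) = 0 := by
      funext l
      have hl : f (v l) = 0 := hf (Submodule.subset_span ⟨l, rfl⟩)
      rw [LinearMap.pi_apply_eq_sum_univ f (v l)] at hl
      rw [Finset.sum_apply, Pi.zero_apply]
      refine Eq.trans (Finset.sum_congr rfl fun g _ => ?_) hl
      rw [Pi.smul_apply, smul_eq_mul, smul_eq_mul, mul_comm]
      rfl
    have hall := Fintype.linearIndependent_iff.mp hli _ hzero
    apply LinearMap.ext
    intro x
    rw [LinearMap.pi_apply_eq_sum_univ f x, LinearMap.zero_apply]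
    exact Finset.sum_eq_zero fun g _ => by rw [hall g, smul_zero]
  have hmem : (fun g : E ≃ₐ[k] E => if g = 1 then (1 : K) else 0) ∈
      Submodule.span K (Set.range v) := htop ▸ Submodule.mem_top
  rw [← Finsupp.range_linearCombination] at hmem
  obtain ⟨c, hc⟩ := hmem
  refine ⟨c, fun g => ?_⟩
  have := congrFun hc g
  rw [Finsupp.linearCombination_apply, Finsupp.sum, Finset.sum_apply] at this
  rw [Finsupp.sum, ← this]
  refine Finset.sum_congr rfl fun l _ => ?_
  rw [Pi.smul_apply, smul_eq_mul]

end dedekind

section trace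

variable [Normal k K] {act : (K ≃ₐ[k] K) → V → V}

/-- Two automorphisms with the same restriction to `E` act in the same way on `l • w`, when `w`
is fixed by the automorphisms fixing `E` and `l ∈ E`. -/
theorem act_eq_of_restrict_eq (h : IsSemilinearAction act) (E : IntermediateField k K)
    {w : V} (hw : ∀ σ : K ≃ₐ[k] K, (∀ e ∈ E, σ e = e) → act σ w = w)
    {σ τ : K ≃ₐ[k] K} (hστ : ∀ e ∈ E, σ e = τ e) (l : E) :
    act σ ((l : K) • w) = act τ ((l : K) • w) := by
  have hfix : ∀ e ∈ E, (τ⁻¹ * σ) e = e := by
    intro e he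
    rw [AlgEquiv.mul_apply, hστ e he]
    exact τ.symm_apply_apply e
  have h1 : act σ w = act τ w := by
    have : σ = τ * (τ⁻¹ * σ) := by group
    rw [this, h.mul, hw _ hfix]
  rw [h.smul, h.smul, h1, hστ l l.2]

theorem mem_span_fixed (h : IsSemilinearAction act) (hs : IsSmooth act)
    (W : Submodule K V) (hW : ∀ σ, ∀ v ∈ W, act σ v ∈ W) {w : V} (hw : w ∈ W) :
    w ∈ Submodule.span K {v | v ∈ W ∧ ∀ σ, act σ v = v} := by
  classical
  obtain ⟨E₀, hfin, hfix₀⟩ := hs w
  let E : IntermediateField k K := IntermediateField.normalClosure k E₀ K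
  have hle : E₀ ≤ E := IntermediateField.le_normalClosure E₀
  have hnormal : Normal k E := normalClosure.normal k E₀ K
  have hfinE : FiniteDimensional k E := normalClosure.is_finiteDimensional k E₀ K
  have hfix : ∀ σ : K ≃ₐ[k] K, (∀ e ∈ E, σ e = e) → act σ w = w :=
    fun σ hσ => hfix₀ σ fun e he => hσ e (hle he)
  have : Fintype (E ≃ₐ[k] E) := Fintype.ofFinite _
  -- lifts
  have hsurj := AlgEquiv.restrictNormalHom_surjective (F := k) (K₁ := E) K
  choose lift hlift using hsurj
  have hres : ∀ (σ : K ≃ₐ[k] K) (l : E), σ (l : K) = ((AlgEquiv.restrictNormalHom E σ l : E) : K) :=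
    fun σ l => (AlgEquiv.restrictNormal_commutes σ E l).symm
  have hliftapp : ∀ (g : E ≃ₐ[k] E) (l : E), lift g (l : K) = ((g l : E) : K) := by
    intro g l
    rw [hres, hlift]
  -- the trace
  let T : E → V := fun l => ∑ g : E ≃ₐ[k] E, act (lift g) ((l : K) • w)
  have hTmem : ∀ l, T l ∈ W := fun l =>
    Submodule.sum_mem _ fun g _ => hW _ _ (W.smul_mem _ hw)
  have hTfix : ∀ l (τ : K ≃ₐ[k] K), act τ (T l) = T l := by
    intro l τ
    change act τ (∑ g : E ≃ₐ[k] E, act (lift g) ((l : K) • w)) = _
    rw [h.sum]
    have hstep : ∀ g : E ≃ₐ[k] E, act τ (act (lift g) ((l : K) • w)) =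
        act (lift (AlgEquiv.restrictNormalHom E τ * g)) ((l : K) • w) := by
      intro g
      rw [← h.mul]
      refine act_eq_of_restrict_eq h E hfix (fun e he => ?_) l
      have e1 := hres (τ * lift g) ⟨e, he⟩
      have e2 := hres (lift (AlgEquiv.restrictNormalHom E τ * g)) ⟨e, he⟩
      rw [map_mul, hlift] at e1
      rw [hlift] at e2
      exact e1.trans e2.symm
    rw [Finset.sum_congr rfl fun g _ => hstep g]
    exact Equiv.sum_comp (Equiv.mulLeft (AlgEquiv.restrictNormalHom E τ))
      (fun g' => act (lift g') ((l : K) • w))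
  have hTeq : ∀ l : E, T l = ∑ g : E ≃ₐ[k] E, (((g l : E) : K)) • act (lift g) w := by
    intro l
    refine Finset.sum_congr rfl fun g _ => ?_
    rw [h.smul, hliftapp]
  -- Dedekind
  obtain ⟨c, hc⟩ := exists_dedekind E
  have hw1 : act (lift 1) w = w := by
    refine hfix _ fun e he => ?_
    have := hliftapp 1 ⟨e, he⟩
    simpa using this
  have hsum : w = ∑ l ∈ c.support, c l • T l := by
    have h1 : ∑ l ∈ c.support, c l • T l =
        ∑ g : E ≃ₐ[k] E, (∑ l ∈ c.support, c l * (((g l : E) : K))) • act (lift g) w := by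
      rw [Finset.sum_congr rfl fun l _ => by rw [hTeq l, Finset.smul_sum]]
      rw [Finset.sum_comm]
      refine Finset.sum_congr rfl fun g _ => ?_
      rw [Finset.sum_smul]
      refine Finset.sum_congr rfl fun l _ => ?_
      rw [smul_smul]
    rw [h1]
    have h2 : ∀ g : E ≃ₐ[k] E, (∑ l ∈ c.support, c l * (((g l : E) : K))) =
        if g = 1 then 1 else 0 := fun g => hc g
    rw [Finset.sum_congr rfl fun g _ => by rw [h2 g]]
    rw [Finset.sum_eq_single 1]
    · rw [if_pos rfl, one_smul, hw1]
    · intro g _ hg
      rw [if_neg hg, zero_smul]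
    · intro h1
      exact absurd (Finset.mem_univ _) h1
  rw [hsum]
  exact Submodule.sum_mem _ fun l _ =>
    Submodule.smul_mem _ _ (Submodule.subset_span ⟨hTmem l, hTfix l⟩)

/-- **Galois descent** for finite-dimensional stable subspaces: there is a basis of fixed vectors. -/
theorem exists_fixed_basis (h : IsSemilinearAction act) (hs : IsSmooth act)
    (W : Submodule K V) [FiniteDimensional K W] (hW : ∀ σ, ∀ v ∈ W, act σ v ∈ W) :
    ∃ b : Fin (finrank K W) → V, (∀ σ i, act σ (b i) = b i) ∧ LinearIndependent K b ∧
      Submodule.span K (Set.range b) = W := by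
  classical
  set s : Set V := {v | v ∈ W ∧ ∀ σ, act σ v = v} with hs_def
  have hspan : Submodule.span K s = W := by
    apply le_antisymm
    · exact Submodule.span_le.mpr fun v hv => hv.1
    · intro w hw
      exact mem_span_fixed h hs W hW hw
  obtain ⟨b, hbs, hbspan, hbli⟩ := exists_linearIndependent K s
  have hbW : ∀ x : b, (x : V) ∈ W := fun x => (hbs x.2).1
  let f : b → W := fun x => ⟨x, hbW x⟩
  have hfli : LinearIndependent K f := by
    apply LinearIndependent.of_comp W.subtype
    exact hbli
  have hfspan : ⊤ ≤ Submodule.span K (Set.range f) := by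
    rintro ⟨w, hw⟩ -
    have hw' : w ∈ Submodule.span K b := by rw [hbspan, hspan]; exact hw
    have : Submodule.span K (b : Set V) =
        (Submodule.span K (Set.range f)).map W.subtype := by
      rw [Submodule.map_span, ← Set.range_comp]
      congr 1
      exact (Subtype.range_coe).symm
    rw [this] at hw'
    obtain ⟨y, hy, hyw⟩ := hw'
    have : y = ⟨w, hw⟩ := Subtype.ext hyw
    rw [← this]
    exact hy
  let B : Basis b K W := Basis.mk hfli hfspan
  have hfin : Finite b := Module.Finite.finite_basis B
  have hcard : Nat.card b = finrank K W := (Module.finrank_eq_nat_card_basis B).symm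
  let e : b ≃ Fin (finrank K W) := Finite.equivFinOfCardEq hcard
  refine ⟨fun i => ((e.symm i : b) : V), fun σ i => (hbs (e.symm i).2).2 σ, ?_, ?_⟩
  · exact hbli.comp e.symm e.symm.injective
  · have hrange : Set.range (fun i => ((e.symm i : b) : V)) = b := by
      change Set.range (Subtype.val ∘ e.symm) = b
      rw [Set.range_comp, e.symm.surjective.range_eq, Set.image_univ, Subtype.range_coe]
    rw [hrange, hbspan, hspan]

end trace

end Fermat.Agent.MW.Descent.SemilinearDescent74
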