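/-
Program MW-H (S17), brick D1 -- helper74.

`Bricks7b.HSetup.GaloisDescent`: a finite-dimensional `Γ`-stable `ℚ̄`-subspace of the function field
has a basis of `Γ`-fixed vectors.  Specialisation of `SemilinearDescent74.exists_fixed_basis`.
-/
import Mathlib
import Fermat.Agent.MW.Spec.Bricks7b
import Fermat.Agent.MW.Descent.SemilinearDescent74

set_option autoImplicit false

open AlgebraicCurve

namespace Fermat.Agent.MW.Descent.GaloisDescent74

open Fermat.Agent.MW.Spec.Bricks7b Fermat.Agent.MW.Descent.SemilinearDescent74

variable {F : Type} [Field F] [Algebra Qb F] [HasCanonicalDivisor (K := Qb) (F := F)]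

/-- The semilinear action of `Gal(ℚ̄/ℚ)` on the function field, as a plain function. -/
noncomputable def act (S : HSetup F) : GQ → F → F := fun σ f => S.γ σ • f

theorem isSemilinearAction_act (S : HSetup F) :
    IsSemilinearAction (k := ℚ) (K := Qb) (V := F) (act S) where
  one v := by
    change S.γ 1 • v = v
    rw [map_one, one_smul]
  mul σ τ v := by
    change S.γ (σ * τ) • v = S.γ σ • (S.γ τ • v)
    rw [map_mul, mul_smul]
  add σ v w := smul_add (S.γ σ) v w
  smul σ a v := by
    change S.γ σ • (a • v) = σ a • (S.γ σ • v)
    rw [Algebra.smul_def, Algebra.smul_def, smul_mul', SemilinearAut.smul_algebraMap, S.base]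

theorem isSmooth_act (S : HSetup F) : IsSmooth (k := ℚ) (K := Qb) (V := F) (act S) :=
  S.smooth

/-- **D1.** Galois descent for finite-dimensional stable subspaces of the function field. -/
theorem galoisDescent (S : HSetup F) : S.GaloisDescent := by
  intro W hWfd hW
  have hcl : IsAlgClosure ℚ (AlgebraicClosure ℚ) :=
    ⟨inferInstance, AlgebraicClosure.isAlgebraic ℚ⟩
  have hnorm : Normal ℚ Qb := IsAlgClosure.normal ℚ (AlgebraicClosure ℚ)
  have hfd : FiniteDimensional Qb W := hWfd
  exact exists_fixed_basis (isSemilinearAction_act S) (isSmooth_act S) W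
    (fun σ v hv => hW σ v hv)

end Fermat.Agent.MW.Descent.GaloisDescent74
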